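import Fermat.Agent.S43.Engine
import Fermat.Agent.S43.Patch.Avoid
import Fermat.Agent.S43.LG1.Instance

/-!
# PROJECT R (row 37 by S43): THE SEAM FILE (helper8, chief R; lead ruling #26 (4))

Three seams, typed first; every block of PROJECT R states its deliverables against these names.

* **(a) the gate** : the ONE new local-global statement of the route, in two forms.  Consumer side
  `LG1HypAt N q p inv` / `LG1Hyp N q p` : `(s - 1)(s - 1)(s - ⟨d_s⟩^{±1}_*) y = 0` on the `p`-power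
  torsion of `J₁(N q)` for `s` in an inertia group at `q`, with `diamond1Bar` (byte-stable since
  9015d530; helper4's bridge `LG1/ToSeam` proves it with `inv = false`).  Producer side
  `Gate N q p` = helper4's `S43/LG1/Instance.LG1Hyp` (helper17's `G2*` #6034).
* **(b) the interface of the two patched systems** `PatchedPair` + `LocalInput` : the hypotheses of
  helper22's `Patch.Avoid.exists_unramified_point` split into what PATCHING owes and what the
  LOCAL ALGEBRA (+ numerology) owes; `PatchedPair.exists_unramified_point` is the consumer.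
* **(c) the export** `Engine.ENGINE` (file `S43/Engine.lean`), `S43` from it in `Engine.s43_of_engine`.
-/

set_option autoImplicit false

noncomputable section

namespace Fermat.Agent.S43.Seam

open Fermat.Agent.S48.B.Defs.Model

/-! ### (a) The gate -/

/-- `s` acts on the `q`-th roots of unity of `ℚ̄` as the unit `d` of `ℤ/Nq` (read modulo `q`) -/
def ActsOnMuAs (N q : ℕ) (s : AlgebraicClosure ℚ ≃ₐ[ℚ] AlgebraicClosure ℚ)
    (d : (ZMod (N * q))ˣ) : Prop :=
  ∀ ζ : AlgebraicClosure ℚ, ζ ^ q = 1 → s ζ = ζ ^ ((d : ZMod (N * q)).val)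

/-- `d ≡ 1 mod N` for a unit of `ℤ/Nq` -/
def IsOneModLeft (N q : ℕ) (d : (ZMod (N * q))ˣ) : Prop :=
  ZMod.castHom (Dvd.intro q rfl : N ∣ N * q) (ZMod N) (d : ZMod (N * q)) = 1

/-- the cubic relation for one inertia element `s`, one diamond `D` and one point `y` :
`(s - 1)(s - 1)(s - D) y = 0` -/
def CubicAt {M : ℕ} [NeZero M] (s : AlgebraicClosure ℚ ≃ₐ[ℚ] AlgebraicClosure ℚ)
    (D : Module.End ℤ (J1 M)) (y : J1 M) : Prop :=
  s • (s • (s • y - D y) - (s • y - D y)) - (s • (s • y - D y) - (s • y - D y)) = 0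

/-- **THE GATE `LG1Hyp N q p`** (sign `inv` : `true` means `⟨d⟩⁻¹`, `false` means `⟨d⟩`). -/
def LG1HypAt (N q p : ℕ) [NeZero (N * q)] (inv : Bool) : Prop :=
  ∀ A : ValuationSubring (AlgebraicClosure ℚ), A.LiesOverPrime q →
    ∀ s ∈ A.inertiaSubgroupIn ℚ, ∀ d : (ZMod (N * q))ˣ,
      IsOneModLeft N q d → ActsOnMuAs N q s d →
      ∀ y : J1 (N * q), (∃ n : ℕ, p ^ n • y = 0) →
        CubicAt s (diamond1Bar (N * q) (if inv then d⁻¹ else d)) y

/-- **THE GATE**, sign left to the owner of the gate. -/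
def LG1Hyp (N q p : ℕ) [NeZero (N * q)] : Prop :=
  ∃ inv : Bool, LG1HypAt N q p inv

/-- **THE GATE, producer side** = helper4's compiled literal `S43/LG1/Instance.LG1Hyp` (end of the
chain `LG1/Abstract → LG1/OfFricke → LG1/Instance`, from the ONE named seam `Instance.GateSeam`).
The bridge `Gate N q p → LG1HypAt N q p false` (so the sign is `inv = false`: `⟨d⟩_*` with `d = d_s`
itself) is helper4's `S43/LG1/ToSeam.lg1HypAt_false`.  `q = 2` is allowed (`d = 1`: unipotent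
inertia at the Steinberg prime `2` for `J₁`). -/
abbrev Gate (N q p : ℕ) [NeZero (N * q)] : Prop :=
  Fermat.Agent.S43.LG1.Instance.LG1Hyp N q p

/-! ### (b) The two patched systems -/

universe u

/-- **What PATCHING (N5 / L4) owes** : over `S = S_∞` (a domain of finite Krull dimension) two
systems `(A₁, M₁)` (unipotent) and `(Aχ, Mχ)`, finite FREE over `S`, a common quotient
`(Abar, Mbar)` (the reduction modulo `lam`) with `Mχ → Mbar` injective modulo `lam` and
`M₁ → Mbar` onto.  Nothing about freeness over `R`, depth or multiplicities. -/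
structure PatchedPair (S A₁ Aχ Abar M₁ Mχ Mbar : Type u) [CommRing S] [CommRing A₁] [CommRing Aχ]
    [CommRing Abar] [Algebra S A₁] [Algebra S Aχ]
    [AddCommGroup M₁] [Module A₁ M₁] [Module S M₁]
    [AddCommGroup Mχ] [Module Aχ Mχ] [Module S Mχ]
    [AddCommGroup Mbar] [Module Abar Mbar] : Type u where
  tower₁ : IsScalarTower S A₁ M₁
  finite₁ : Module.Finite S M₁
  free₁ : Module.Free S M₁
  towerχ : IsScalarTower S Aχ Mχ
  finiteχ : Module.Finite S Mχ
  freeχ : Module.Free S Mχ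
  nontrivialχ : Nontrivial Mχ
  /-- the uniformiser, as an element of `S_∞` -/
  lam : S
  π₁ : A₁ →+* Abar
  πχ : Aχ →+* Abar
  πχ_surjective : Function.Surjective πχ
  πχ_lam : πχ (algebraMap S Aχ lam) = 0
  p₁ : M₁ →+ Mbar
  p₁_surjective : Function.Surjective p₁
  p₁_smul : ∀ (a : A₁) (m : M₁), p₁ (a • m) = π₁ a • p₁ m
  pχ : Mχ →+ Mbar
  pχ_smul : ∀ (a : Aχ) (m : Mχ), pχ (a • m) = πχ a • pχ m
  pχ_ker : ∀ m : Mχ, pχ m = 0 →
    m ∈ (Ideal.span {algebraMap S Aχ lam} • ⊤ : Submodule Aχ Mχ)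

/-- **What the LOCAL ALGEBRA + the numerology (N3) owe**, for a patched pair `X` : on the unipotent
side the ideals `I i` (entries of `ρ(σ_i) - 1` at the `i`-th stuck prime), the elements
`g i = ℓ_i tr(Φ_i)² - (1 + ℓ_i)² det(Φ_i)`, the prime `P₀ = ⨆ I i` with `dim A₁/P₀ ≤ dim S`,
`I i · g i` nilpotent; on the `χ` side ONE prime `𝔭` with `dim Aχ/𝔭 ≤ dim S` inside `rad (Ann Mχ)`
(`⊥` if `R_∞^χ` is a domain: helper6's Rees algebra); the prime `Qbar = (P₀, lam)` of `Abar`. -/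
structure LocalInput {S A₁ Aχ Abar M₁ Mχ Mbar : Type u} [CommRing S] [CommRing A₁] [CommRing Aχ]
    [CommRing Abar] [Algebra S A₁] [Algebra S Aχ]
    [AddCommGroup M₁] [Module A₁ M₁] [Module S M₁]
    [AddCommGroup Mχ] [Module Aχ Mχ] [Module S Mχ]
    [AddCommGroup Mbar] [Module Abar Mbar]
    (X : PatchedPair S A₁ Aχ Abar M₁ Mχ Mbar) (ι : Type u) (I : ι → Ideal A₁) (g : ι → A₁)
    (P₀ : Ideal A₁) (𝔭 : Ideal Aχ) (Qbar : Ideal Abar) : Prop where
  P₀_prime : P₀.IsPrime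
  P₀_eq : P₀ = ⨆ i, I i
  dim₁ : ringKrullDim (A₁ ⧸ P₀) ≤ ringKrullDim S
  nilp : ∀ i, ∀ a ∈ I i, IsNilpotent (a * g i)
  𝔭_prime : 𝔭.IsPrime
  dimχ : ringKrullDim (Aχ ⧸ 𝔭) ≤ ringKrullDim S
  𝔭_le : 𝔭 ≤ (Module.annihilator Aχ Mχ).radical
  Qbar_prime : Qbar.IsPrime
  𝔭_le_Qbar : 𝔭 ≤ Qbar.comap X.πχ
  g_notMem : ∀ i, X.π₁ (g i) ∉ Qbar

/-- **The consumer** (helper22's `Patch.Avoid.exists_unramified_point`) : over every prime `𝔞` of
`S_∞` (think: the augmentation ideal) there is a prime of `R_∞^1` in the support of `M_∞^1` which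
contains `P₀`, i.e. a point of the support of `M₀ = M_∞^1 / 𝔞` at which `ρ` is unramified at every
stuck prime. -/
theorem PatchedPair.exists_unramified_point {S A₁ Aχ Abar M₁ Mχ Mbar : Type u} [CommRing S]
    [IsDomain S] [FiniteRingKrullDim S] [CommRing A₁] [CommRing Aχ] [CommRing Abar]
    [Algebra S A₁] [Algebra S Aχ] [IsNoetherianRing A₁] [IsNoetherianRing Aχ]
    [AddCommGroup M₁] [Module A₁ M₁] [Module S M₁]
    [AddCommGroup Mχ] [Module Aχ Mχ] [Module S Mχ]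
    [AddCommGroup Mbar] [Module Abar Mbar]
    (X : PatchedPair S A₁ Aχ Abar M₁ Mχ Mbar) {ι : Type u} {I : ι → Ideal A₁} {g : ι → A₁}
    {P₀ : Ideal A₁} {𝔭 : Ideal Aχ} {Qbar : Ideal Abar} (Y : LocalInput X ι I g P₀ 𝔭 Qbar)
    (𝔞 : Ideal S) [𝔞.IsPrime] :
    ∃ 𝔮 : Ideal A₁, 𝔮.IsPrime ∧ P₀ ≤ 𝔮 ∧ Module.annihilator A₁ M₁ ≤ 𝔮 ∧
      𝔮.comap (algebraMap S A₁) = 𝔞 := by
  haveI := X.tower₁
  haveI := X.finite₁
  haveI := X.free₁
  haveI := X.towerχ
  haveI := X.finiteχ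
  haveI := X.freeχ
  haveI := X.nontrivialχ
  haveI := Y.P₀_prime
  haveI := Y.𝔭_prime
  haveI := Y.Qbar_prime
  exact Fermat.Agent.S43.Patch.Avoid.exists_unramified_point I g P₀ Y.P₀_eq Y.dim₁ Y.nilp 𝔭
    Y.dimχ Y.𝔭_le X.lam X.π₁ X.πχ X.πχ_surjective X.πχ_lam X.p₁ X.p₁_surjective X.p₁_smul X.pχ
    X.pχ_smul X.pχ_ker Qbar Y.𝔭_le_Qbar Y.g_notMem 𝔞

end Fermat.Agent.S43.Seam
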