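import Fermat.Statements.S43

/-!
# PROJECT R (row 37 by S43), the exported seam `ENGINE` (helper8, chief R)

`ENGINE` is the ONE statement the whole of PROJECT R has to deliver: from a conductor level `N` at
which the (irreducible) Frey representation is modular, all odd primes `≠ p` can be removed from the
level at once (non-stuck primes by Mazur's principle, block T1; the stuck primes `ℓ ≡ 1 mod p` all at
once by patching the two module systems `M¹`, `M^χ`, blocks L0-L4).

`S43` (the Frey form of Ribet's theorem, row 37) is immediate from `ENGINE`: `s43_of_engine`.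
The statement `S43Statement` below is the frozen statement of `Fermat/Statements/S43.lean`, copied
from `Fermat/Templates/S43.lean.txt`; `S43.lean` will be `Top.s43_of_engine Assembly.engine ..`.
-/

set_option autoImplicit false
open WeierstrassCurve WeierstrassCurve.Affine WeierstrassCurve.Affine.Point
open CuspForm ModularFormClass UpperHalfPlane
open FreyPackage

namespace Fermat.Agent.S43.Engine

/-- **THE EXPORTED SEAM OF PROJECT R.**  For a Frey package `P`, a conductor level `N` (squarefree,
supported on the primes of `abc`), `ρ̄_{E,p}` irreducible and modular of level `N`: it is modular of a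
level `M ∣ N` with `M ∣ 2p` (every odd prime `≠ p` is gone). -/
def ENGINE : Prop :=
  ∀ (P : FreyPackage) (N : ℕ), P.IsConductorLevel N →
    GaloisRepIsIrreducible (K := AlgebraicClosure ℚ) ℚ P.freyCurve P.p →
    P.ModularRepOfLevel N →
    ∃ M : ℕ, M ∣ N ∧ M ∣ 2 * P.p ∧ P.ModularRepOfLevel M

/-- the minimal form of the engine, one prime at a time (this is `S43` without the redundant
hypothesis `hunr`, which is `S05` on main); `ENGINE → ENGINE1` is `engine1_of_engine` -/
def ENGINE1 : Prop :=
  ∀ (P : FreyPackage) (N q : ℕ), P.IsConductorLevel N → q.Prime → q ≠ 2 → q ≠ P.p → q ∣ N →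
    GaloisRepIsIrreducible (K := AlgebraicClosure ℚ) ℚ P.freyCurve P.p →
    P.ModularRepOfLevel N →
    ∃ M : ℕ, M ∣ N ∧ ¬ q ∣ M ∧ P.ModularRepOfLevel M

/-- an odd prime `q ≠ p` does not divide a divisor of `2p` -/
theorem not_dvd_of_dvd_two_mul {p q M : ℕ} (hp : p.Prime) (hq : q.Prime) (hq2 : q ≠ 2)
    (hqp : q ≠ p) (hM : M ∣ 2 * p) : ¬ q ∣ M := by
  intro hqM
  have h := hqM.trans hM
  rcases (Nat.Prime.dvd_mul hq).mp h with h2 | hp'
  · exact hq2 ((Nat.prime_dvd_prime_iff_eq hq Nat.prime_two).mp h2)
  · exact hqp ((Nat.prime_dvd_prime_iff_eq hq hp).mp hp')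

theorem engine1_of_engine (h : ENGINE) : ENGINE1 := by
  intro P N q hcond hq hq2 hqp _ hirr hmod
  obtain ⟨M, hMN, hM2p, hM⟩ := h P N hcond hirr hmod
  exact ⟨M, hMN, not_dvd_of_dvd_two_mul P.pp hq hq2 hqp hM2p, hM⟩

/-- the frozen statement of `S43` (copied from the template; the binder names are the template's) -/
def S43Statement : Prop :=
  ∀ (P : FreyPackage) {N q : ℕ} (_hcond : P.IsConductorLevel N) (_hq : q.Prime) (_hq2 : q ≠ 2)
    (_hqp : q ≠ P.p) (_hqN : q ∣ N)
    (_hirr : GaloisRepIsIrreducible (K := AlgebraicClosure ℚ) ℚ P.freyCurve P.p)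
    (_hmod : P.ModularRepOfLevel N) (_hunr : P.GaloisRepUnramifiedAt q),
    ∃ M : ℕ, M ∣ N ∧ ¬ q ∣ M ∧ P.ModularRepOfLevel M

theorem s43_of_engine1 (h : ENGINE1) : S43Statement := by
  intro P N q hcond hq hq2 hqp hqN hirr hmod _
  exact h P N q hcond hq hq2 hqp hqN hirr hmod

/-- **`S43` from `ENGINE`** -/
theorem s43_of_engine (h : ENGINE) : S43Statement :=
  s43_of_engine1 (engine1_of_engine h)

end Fermat.Agent.S43.Engine
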